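import Fermat.Agent.S05.Defs

/-!
# S44 / E / Filt : the level filtration of the kernel of reduction   [key S44/E-FILT = (E2)]

For `m < 0` the set `{g : g = 0 ∨ w ξ(g) ≤ m}` is a subgroup (x-only add/sub and duplication formulas).
-/

set_option autoImplicit false

namespace Fermat.Agent.S44.E

open Fermat.Agent.S05

variable {K : Type*} [Field K] {G : Type*} [AddCommGroup G]

/-- the level `m` subgroup of the kernel of reduction: `g = 0` or `w ξ(g) ≤ m` -/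
def InEm (D : KummerData K G) (v : RVal K) (m : ℝ) (g : G) : Prop :=
  ∀ x, D.ξ g = some x → x ≠ 0 ∧ v.w x ≤ m

variable {D : KummerData K G} {v : RVal K} {m : ℝ}

lemma filt_add_aux {β κ x₁ x₂ X Y : K} (hβ : v.GE β 0) (hκ : v.GE κ 0) (hm : m < 0)
    (h₁0 : x₁ ≠ 0) (h₁ : v.w x₁ ≤ m) (h₂0 : x₂ ≠ 0) (h₂ : v.w x₂ ≤ m) (hne : x₁ ≠ x₂)
    (hprod : X * Y * (x₁ - x₂) ^ 2 = (x₁ * x₂ - κ) ^ 2)
    (hsum : (X + Y) * (x₁ - x₂) ^ 2 = (x₁ + x₂) * (2 * x₁ * x₂ + 2 * κ) + β * x₁ * x₂) :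
    X ≠ 0 ∧ v.w X ≤ m := by
  set m₁ := v.w x₁ with hm₁
  set m₂ := v.w x₂ with hm₂
  have e₁ : v.EQ x₁ m₁ := RVal.EQ_self h₁0
  have e₂ : v.EQ x₂ m₂ := RVal.EQ_self h₂0
  have hδ0 : x₁ - x₂ ≠ 0 := sub_ne_zero.mpr hne
  set d := v.w (x₁ - x₂) with hd
  have eδ : v.EQ (x₁ - x₂) d := RVal.EQ_self hδ0
  set μ := min m₁ m₂ with hμ
  have hmle₁ : μ ≤ m₁ := min_le_left _ _
  have hmle₂ : μ ≤ m₂ := min_le_right _ _
  have hμlt : μ < 0 := lt_of_le_of_lt hmle₁ (lt_of_le_of_lt h₁ hm)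
  have hdm : μ ≤ d := ((e₁.GE hmle₁).sub (e₂.GE hmle₂)).le_w hδ0
  -- `m₁ + m₂ ≤ μ + m`
  have hsum' : m₁ + m₂ ≤ μ + m := by
    rcases min_choice m₁ m₂ with h | h <;> rw [← hμ] at h <;> linarith
  have e12 : v.EQ (x₁ * x₂) (m₁ + m₂) := e₁.mul e₂
  have eN : v.EQ ((x₁ * x₂ - κ) ^ 2) (2 * (m₁ + m₂)) :=
    (e12.sub_GT (hκ.GT (by linarith))).sq
  rw [← hprod] at eN
  have hXY0 : X * Y ≠ 0 := left_ne_zero_of_mul eN.1
  have hX0 : X ≠ 0 := left_ne_zero_of_mul hXY0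
  have hY0 : Y ≠ 0 := right_ne_zero_of_mul hXY0
  refine ⟨hX0, ?_⟩
  by_contra hXge
  push Not at hXge
  have hw : v.w X + v.w Y + 2 * d = 2 * (m₁ + m₂) := by
    have := eN.2
    rw [v.map_mul _ _ hXY0 (pow_ne_zero 2 hδ0), v.map_mul _ _ hX0 hY0, RVal.w_pow hδ0] at this
    push_cast at this
    linarith
  have hYlt : v.w Y < v.w X := by linarith
  have eS : v.EQ (Y + X) (v.w Y) := (RVal.EQ_self hY0).add_GT (Or.inr hYlt)
  rw [add_comm] at eS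
  have eL : v.EQ ((X + Y) * (x₁ - x₂) ^ 2) (v.w Y + 2 * d) := eS.mul eδ.sq
  have h2 : v.GE (2 : K) 0 := RVal.GE_ofNat 2
  have hR : v.GE ((x₁ + x₂) * (2 * x₁ * x₂ + 2 * κ) + β * x₁ * x₂) (μ + (m₁ + m₂)) := by
    apply RVal.GE.add
    · apply RVal.GE.mul
      · exact (e₁.GE hmle₁).add (e₂.GE hmle₂)
      · apply RVal.GE.add
        · rw [mul_assoc]
          exact (h2.mul (e12.GE le_rfl)).mono (by linarith)
        · exact (h2.mul hκ).mono (by linarith)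
    · rw [mul_assoc]
      exact (hβ.mul (e12.GE le_rfl)).mono (by linarith)
  rw [← hsum] at hR
  have := hR.le_w eL.1
  rw [eL.2] at this
  linarith

lemma filt_dbl_aux {β κ x X : K} (hβ : v.GE β 0) (hκ : v.GE κ 0) (hm : m < 0) (h0 : x ≠ 0)
    (h : v.w x ≤ m)
    (hX : X * (x * (4 * x ^ 2 + β * x + 4 * κ)) = (x ^ 2 - κ) ^ 2) : X ≠ 0 ∧ v.w X ≤ m := by
  set m' := v.w x with hm'
  have e : v.EQ x m' := RVal.EQ_self h0
  have eN : v.EQ ((x ^ 2 - κ) ^ 2) (2 * (2 * m')) := (e.sq.sub_GT (hκ.GT (by linarith))).sq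
  rw [← hX] at eN
  have hX0 : X ≠ 0 := left_ne_zero_of_mul eN.1
  have hP0 : x * (4 * x ^ 2 + β * x + 4 * κ) ≠ 0 := right_ne_zero_of_mul eN.1
  refine ⟨hX0, ?_⟩
  have h4 : v.GE (4 : K) 0 := RVal.GE_ofNat 4
  have hP : v.GE (x * (4 * x ^ 2 + β * x + 4 * κ)) (m' + 2 * m') := by
    apply RVal.GE.mul (e.GE le_rfl)
    apply RVal.GE.add
    · apply RVal.GE.add
      · exact (h4.mul (e.sq.GE le_rfl)).mono (by linarith)
      · exact (hβ.mul (e.GE le_rfl)).mono (by linarith)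
    · exact (h4.mul hκ).mono (by linarith)
  have h1 := hP.le_w hP0
  have h2 := eN.2
  rw [v.map_mul _ _ hX0 hP0] at h2
  linarith

lemma InEm.zero : InEm D v m 0 := by
  intro x hx
  rw [(D.ξ_eq_none 0).mpr rfl] at hx
  cases hx

lemma InEm.neg {g : G} (h : InEm D v m g) : InEm D v m (-g) := by
  intro x hx
  rw [D.ξ_neg] at hx
  exact h x hx

lemma InEm.mono {m' : ℝ} {g : G} (h : InEm D v m g) (hmm : m ≤ m') : InEm D v m' g :=
  fun x hx => ⟨(h x hx).1, (h x hx).2.trans hmm⟩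

/-- (E2) -/
theorem InEm.add (hβ : v.GE D.β 0) (hκ : v.GE D.κ 0) (hm : m < 0) {g₁ g₂ : G}
    (h₁ : InEm D v m g₁) (h₂ : InEm D v m g₂) : InEm D v m (g₁ + g₂) := by
  intro X hX
  rcases h1 : D.ξ g₁ with _ | x₁
  · rw [(D.ξ_eq_none g₁).mp h1, zero_add] at hX
    exact h₂ X hX
  rcases h2 : D.ξ g₂ with _ | x₂
  · rw [(D.ξ_eq_none g₂).mp h2, add_zero] at hX
    exact h₁ X hX
  obtain ⟨h₁0, h₁'⟩ := h₁ x₁ h1
  obtain ⟨h₂0, h₂'⟩ := h₂ x₂ h2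
  by_cases hne : x₁ = x₂
  · subst hne
    rcases D.eq_or_eq_neg g₁ g₂ (h1.trans h2.symm) with h | h
    · subst h
      by_cases hη : D.η g₁ = 0
      · rw [D.dbl_zero g₁ hη, (D.ξ_eq_none 0).mpr rfl] at hX
        cases hX
      · obtain ⟨X', hX', hd⟩ := D.dbl g₁ x₁ h1 hη
        rw [hX] at hX'
        cases hX'
        exact filt_dbl_aux hβ hκ hm h₁0 h₁' hd
    · rw [h, neg_add_cancel, (D.ξ_eq_none 0).mpr rfl] at hX
      cases hX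
  · obtain ⟨X', Y, hX', -, hprod, hsum⟩ := D.addsub g₁ g₂ x₁ x₂ h1 h2 hne
    rw [hX] at hX'
    cases hX'
    exact filt_add_aux hβ hκ hm h₁0 h₁' h₂0 h₂' hne hprod hsum

theorem InEm.sub (hβ : v.GE D.β 0) (hκ : v.GE D.κ 0) (hm : m < 0) {g₁ g₂ : G}
    (h₁ : InEm D v m g₁) (h₂ : InEm D v m g₂) : InEm D v m (g₁ - g₂) := by
  rw [sub_eq_add_neg]
  exact h₁.add hβ hκ hm h₂.neg

theorem InEm.nsmul (hβ : v.GE D.β 0) (hκ : v.GE D.κ 0) (hm : m < 0) {g : G}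
    (h : InEm D v m g) (n : ℕ) : InEm D v m (n • g) := by
  induction n with
  | zero => rw [zero_smul]; exact InEm.zero
  | succ n ih => rw [succ_nsmul]; exact ih.add hβ hκ hm h

end Fermat.Agent.S44.E
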