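import Fermat.Agent.S13.AtP
import Fermat.Agent.S44.E.Filt

/-!
# S44 / E / Bud : the budget   [key S44/E-BUD = (E3)]

`T ≠ 0` a `p`-torsion point (`p = 2 b + 1`) in the kernel of reduction.  Then `b * (- w ξ(T)) ≤ w p`, i.e.
`w ξ(T) ≥ - 2 w(p) / (p - 1)`.

Proof: with `m = w ξ(T) < 0` all the multiples of `T` lie in the level `m` subgroup (`InEm.nsmul`); the
abscissae of `j • T`, `1 ≤ j ≤ b`, are `b` distinct roots of `half W b = - p ∏ (X - x)` of valuation `≤ m`;
`S13.budget`.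
-/

set_option autoImplicit false

namespace Fermat.Agent.S44.E

open Fermat.Agent.S05 Fermat.Agent.S13 Fermat.Agent.DivPoly WeierstrassCurve WeierstrassCurve.Affine

variable {K : Type*} [Field K] [DecidableEq K]

variable (W : Affine K) (h2 : (2 : K) ≠ 0)
  (he : 4 * (0 : K) ^ 3 + W.b₂ * (0 : K) ^ 2 + 2 * W.b₄ * (0 : K) + W.b₆ = 0) (v : RVal K)

/-- (E3) -/
theorem bud [IsAlgClosed K] {b : ℕ} (hp : (2 * b + 1).Prime)
    (hpK : (2 * (b : K) + 1) ≠ 0)
    (hcard : Nat.card (Submodule.torsionBy ℤ W.Point ((2 * b + 1 : ℕ) : ℤ)) = (2 * b + 1) ^ 2)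
    (hint : ∀ i, v.GE ((half W b).coeff i) 0)
    (hβ : v.GE (kummerOf W 0 h2 he).β 0) (hκ : v.GE (kummerOf W 0 h2 he).κ 0)
    {T : W.Point} (hT : (2 * b + 1) • T = 0) {x : K}
    (hx : (kummerOf W 0 h2 he).ξ T = some x) (hx0 : x ≠ 0) (hneg : v.w x < 0) :
    (b : ℝ) * (- v.w x) ≤ v.w ((2 * b + 1 : ℕ) : K) := by
  classical
  set p := 2 * b + 1 with hpdef
  set D := kummerOf W 0 h2 he with hD
  set m := v.w x with hm
  have hT0 : T ≠ 0 := by
    rintro rfl
    rw [(D.ξ_eq_none 0).mpr rfl] at hx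
    cases hx
  have hTm : InEm D v m T := by
    intro x' hx'
    rw [hx] at hx'
    obtain rfl := Option.some.inj hx'
    exact ⟨hx0, le_rfl⟩
  have hall : ∀ j : ℕ, InEm D v m (j • T) := fun j => hTm.nsmul hβ hκ hneg j
  have ho : addOrderOf T = p := by
    have := Fact.mk hp
    exact addOrderOf_eq_prime hT hT0
  have hne : ∀ j : ℕ, 1 ≤ j → j ≤ p - 1 → j • T ≠ 0 := by
    intro j hj1 hj2 h0
    have h1 := addOrderOf_dvd_of_nsmul_eq_zero h0
    rw [ho] at h1
    have := Nat.le_of_dvd (by omega) h1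
    omega
  have hξ : ∀ {x y : K} (h : W.Nonsingular x y), D.ξ (Point.some x y h) = Option.some x := by
    intro x y h
    show Option.some (x - 0) = Option.some x
    rw [sub_zero]
  obtain ⟨-, hprod⟩ := half_eq_prod' W hpK hcard
  set Ξ := (half W b).roots.toFinset with hΞ
  have hroot : ∀ {x y : K} (h : W.Nonsingular x y), p • Point.some x y h = 0 → x ∈ Ξ := by
    intro x y h h0
    rw [hΞ, Multiset.mem_toFinset, Polynomial.mem_roots (half_ne_zero W hpK), Polynomial.IsRoot]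
    exact (odd_nsmul_eq_zero_iff W h b).mp h0
  have hc0 : (-(2 * (b : K) + 1)) ≠ 0 := neg_ne_zero.mpr hpK
  have hbud := budget v hc0 Ξ (by rw [← hprod]; exact hint)
  have hwc : v.w (-(2 * (b : K) + 1)) = v.w ((p : ℕ) : K) := by
    rw [RVal.w_neg, hpdef]; push_cast; rfl
  rw [hwc] at hbud
  set Ξm := Ξ.filter (fun ξ => ξ ≠ 0 ∧ v.w ξ < 0) with hΞm
  -- the abscissae of `j • T`, `1 ≤ j ≤ b`
  have hdesc : ∀ j : ℕ, 1 ≤ j → j ≤ b → ∃ (y : K) (h : W.Nonsingular (xc (j • T)) y),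
      j • T = Point.some (xc (j • T)) y h := by
    intro j hj1 hj2
    rcases hjT : j • T with _ | ⟨x, y, h⟩
    · exact absurd hjT (hne j hj1 (by omega))
    · exact ⟨y, h, rfl⟩
  set S := (Finset.Icc 1 b).image (fun j => xc (j • T)) with hS
  have hinj : Set.InjOn (fun j => xc (j • T)) (Finset.Icc 1 b : Set ℕ) := by
    intro i hi j hj hij
    rw [Finset.coe_Icc, Set.mem_Icc] at hi hj
    dsimp only at hij
    obtain ⟨y, h, e1⟩ := hdesc i hi.1 hi.2
    obtain ⟨y', h', e2⟩ := hdesc j hj.1 hj.2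
    have hξij : D.ξ (i • T) = D.ξ (j • T) := by
      rw [e1, e2, hξ, hξ, hij]
    rcases D.eq_or_eq_neg _ _ hξij with h3 | h3
    · -- `i • T = j • T`
      rcases le_total i j with hle | hle
      · have h4 : (j - i) • T = 0 := by
          have : j • T = (j - i) • T + i • T := by rw [← add_smul]; congr 1; omega
          rw [this] at h3
          exact (right_eq_add.1 h3)
        have h5 := addOrderOf_dvd_of_nsmul_eq_zero h4
        rw [ho] at h5
        by_contra hne'
        have := Nat.le_of_dvd (by omega) h5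
        omega
      · have h4 : (i - j) • T = 0 := by
          have : i • T = (i - j) • T + j • T := by rw [← add_smul]; congr 1; omega
          rw [this] at h3
          exact (add_eq_right.1 h3)
        have h5 := addOrderOf_dvd_of_nsmul_eq_zero h4
        rw [ho] at h5
        by_contra hne'
        have := Nat.le_of_dvd (by omega) h5
        omega
    · -- `i • T = - j • T`
      have h4 : (i + j) • T = 0 := by
        rw [add_smul, h3, neg_add_cancel]
      have h5 := addOrderOf_dvd_of_nsmul_eq_zero h4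
      rw [ho] at h5
      have := Nat.le_of_dvd (by omega) h5
      omega
  have hScard : S.card = b := by
    rw [hS, Finset.card_image_of_injOn hinj, Nat.card_Icc]
    omega
  have hSval : ∀ x' ∈ S, x' ≠ 0 ∧ v.w x' ≤ m := by
    intro x' hx'
    obtain ⟨j, hj, rfl⟩ := Finset.mem_image.mp hx'
    rw [Finset.mem_Icc] at hj
    obtain ⟨y, h, e1⟩ := hdesc j hj.1 hj.2
    exact hall j _ (by rw [congrArg D.ξ e1]; exact hξ h)
  have hSsub : S ⊆ Ξm := by
    intro x' hx'
    have hv := hSval x' hx'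
    obtain ⟨j, hj, rfl⟩ := Finset.mem_image.mp hx'
    rw [Finset.mem_Icc] at hj
    obtain ⟨y, h, e1⟩ := hdesc j hj.1 hj.2
    rw [hΞm, Finset.mem_filter]
    refine ⟨hroot h ?_, hv.1, lt_of_le_of_lt hv.2 hneg⟩
    rw [← e1, smul_comm, hT, nsmul_zero]
  have h1 : ∑ ξ ∈ Ξm, v.w ξ ≤ ∑ ξ ∈ S, v.w ξ := by
    rw [← Finset.sum_sdiff hSsub]
    have : ∑ ξ ∈ Ξm \ S, v.w ξ ≤ 0 := by
      refine Finset.sum_nonpos fun ξ hξm => ?_
      rw [Finset.mem_sdiff, hΞm, Finset.mem_filter] at hξm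
      exact hξm.1.2.2.le
    linarith
  have h2' : ∑ ξ ∈ S, v.w ξ ≤ S.card • m := Finset.sum_le_card_nsmul _ _ _ fun ξ hξS => (hSval ξ hξS).2
  rw [hScard, nsmul_eq_mul] at h2'
  linarith

end Fermat.Agent.S44.E
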