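import Fermat.Agent.S13.Nodal
import Fermat.Agent.S13.Local
import Fermat.Agent.S13.Budget
import Fermat.Agent.S41.Eis.Card

/-!
# S44 / E / Node0 : `E[p] ⊄ E₁` for multiplicative reduction in residue characteristic `p`   [key S44/E-NODE0]

Setting of `S13.no_unit_torsion`: `W` over an algebraically closed `K`, node at `x = e`.

* `pq_node_zero` : in any commutative ring, if `dupD b₂ b₄ b₆ e 1 = 0` and `dupN b₄ b₆ b₈ e 1 = 0` then
  `pq b₂ b₄ b₆ b₈ e n = (0, 0)` for all `n ≥ 2`  (`pq_induction`, motive `2 ≤ n → ..`; `pq 2 = (dupN e 1, dupD e 1)`;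
  `dupN, dupD` vanish at `(0,0)`; `sumN, hlf` vanish if the first pair is `(0,0)`; in `pq_odd b`, `b + 1 ≥ 2`).
* `den_val` : copy of the proof of `S13.no_unit_torsion` (reduction `r : O → k`, `O = Nodal.ringOf v`):
  there `main : r (pq B₂ B₄ B₆ B₈ XX p).2 ≠ 0` says that `(pq .. X p).2` is a unit if `X - e` is a unit; and for
  `X = e`: `r (pq .. E p).2 = (pq (r B₂) .. (r E) p).2 = 0` by `pq_node_zero`
  (`dupD .. (r E) 1 = 0` is `re`; `dupN .. (r E) 1 = 0` follows from `e4, e6, e8`), so `(pq .. e p).2` has positive valuation.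
* `exists_not_InE1` : otherwise every root `ξ` of `half W b = - p ∏ (X - ξ)` (`half_eq_prod'`, `S41.Eis.card_torsionBy`)
  is the abscissa of a `p`-torsion point (`exists_nonsingular`, `odd_nsmul_eq_zero_iff`), hence `w (ξ - e) < 0`;
  so `w (e - ξ) = w (e + 1 - ξ)` for all roots, `w (half(e)) = w (half(e+1))`; but `den (2b+1) = half ^ 2` (`den_odd`, `eval_den`)
  has positive valuation at `e` and valuation `0` at `e + 1`.
-/

set_option autoImplicit false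

namespace Fermat.Agent.S44.E

open Fermat.Agent.S05 Fermat.Agent.S13 Fermat.Agent.DivPoly

theorem pq_node_zero {A : Type*} [CommRing A] (b₂ b₄ b₆ b₈ e : A) (hD : dupD b₂ b₄ b₆ e 1 = 0)
    (hN : dupN b₄ b₆ b₈ e 1 = 0) (n : ℕ) (hn : 2 ≤ n) : pq b₂ b₄ b₆ b₈ e n = (0, 0) := by
  induction n using pq_induction with
  | h0 => omega
  | h1 => omega
  | heven b hb ih =>
    rw [pq_even]
    rcases Nat.lt_or_ge b 2 with h | h
    · have hb1 : b = 1 := by omega
      subst hb1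
      rw [pq_one]
      simp only [hN, hD]
    · rw [ih h]
      simp [dupN, dupD]
  | hodd b hb _ ih' =>
    rw [pq_odd, ih' (by omega)]
    simp [sumN, hlf]

variable {K : Type*} [Field K] [DecidableEq K]

theorem den_val (W : WeierstrassCurve.Affine K) (e : K) (h2 : (2 : K) ≠ 0)
    (he : 4 * e ^ 3 + W.b₂ * e ^ 2 + 2 * W.b₄ * e + W.b₆ = 0) (v : RVal K)
    {p : ℕ} (hp : p.Prime) (hp2 : p ≠ 2) (hpv : v.GT (p : K) 0)
    (hb₂ : v.GE W.b₂ 0) (hb₄ : v.GE W.b₄ 0) (hei : v.GE e 0)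
    (hβ : v.EQ (kummerOf W e h2 he).β 0) (hκ : v.GT (kummerOf W e h2 he).κ 0) :
    v.GT (pq W.b₂ W.b₄ W.b₆ W.b₈ e p).2 0 ∧
      ∀ X : K, v.EQ (X - e) 0 → v.EQ (pq W.b₂ W.b₄ W.b₆ W.b₈ X p).2 0 := by
  have hβ' : v.EQ (W.b₂ + 12 * e) 0 := hβ
  have hκ' : v.GT ((W.b₄ + W.b₂ * e + 6 * e ^ 2) / 2) 0 := hκ
  -- `2` is a unit
  have two : v.GE (2 : K) 0 := RVal.GE_ofNat 2
  have h2u : v.EQ (2 : K) 0 := by
    refine ⟨h2, le_antisymm ?_ (two.le_w h2)⟩
    by_contra hlt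
    rw [not_le] at hlt
    obtain ⟨m, hm⟩ := hp.odd_of_ne_two hp2
    have h1 : (1 : K) = (p : K) - 2 * (m : K) := by rw [hm]; push_cast; ring
    have h3 : v.GT (2 * (m : K)) 0 :=
      (RVal.GT.mul_GE (Or.inr hlt : v.GT (2 : K) 0) (RVal.GE_natCast m)).mono (by norm_num)
    have h4 : v.GT (1 : K) 0 := by rw [h1]; exact hpv.sub h3
    exact h4.not_LE (RVal.EQ_one.LE le_rfl) le_rfl
  have h4u : v.EQ (4 : K) 0 := by
    have : (4 : K) = 2 * 2 := by norm_num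
    rw [this]; exact (h2u.mul h2u).of_eq (by norm_num)
  have hb₆ : v.GE W.b₆ 0 := by
    have : W.b₆ = -(4 * e ^ 3 + W.b₂ * e ^ 2 + 2 * W.b₄ * e) := by linear_combination he
    rw [this]
    refine RVal.GE.neg ?_
    refine ((((h4u.GE le_rfl).mul (hei.pow 3)).mono (by norm_num)).add
      ((hb₂.mul (hei.pow 2)).mono (by norm_num))).add (((two.mul hb₄).mul hei).mono (by norm_num))
  have hb₈ : v.GE W.b₈ 0 := by
    have h4 : (4 : K) ≠ 0 := h4u.1
    have : W.b₈ = (W.b₂ * W.b₆ - W.b₄ ^ 2) * (4 : K)⁻¹ := by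
      have := W.b_relation
      field_simp
      linear_combination this
    rw [this]
    refine (RVal.GE.mul (a := 0) (b := 0) ?_ (h4u.inv.GE (by norm_num))).mono (by norm_num)
    exact ((hb₂.mul hb₆).mono (by norm_num)).sub ((hb₄.pow 2).mono (by norm_num))
  -- reduction
  set O := Nodal.ringOf v
  set r := IsLocalRing.residue O
  let B₂ : O := ⟨W.b₂, hb₂⟩
  let B₄ : O := ⟨W.b₄, hb₄⟩
  let B₆ : O := ⟨W.b₆, hb₆⟩
  let B₈ : O := ⟨W.b₈, hb₈⟩
  let E : O := ⟨e, hei⟩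
  have c2 : ((2 : O) : K) = 2 := Nodal.coe_ofNat 2
  have c4 : ((4 : O) : K) = 4 := Nodal.coe_ofNat 4
  have c6 : ((6 : O) : K) = 6 := Nodal.coe_ofNat 6
  have c12 : ((12 : O) : K) = 12 := Nodal.coe_ofNat 12
  have key : ∀ z : O, v.GT (z : K) 0 → r z = 0 := fun z hz => (Nodal.residue_eq_zero_iff z).mpr hz
  have key' : ∀ z : O, v.EQ (z : K) 0 → r z ≠ 0 := fun z hz h =>
    ((Nodal.residue_eq_zero_iff z).mp h).not_LE (hz.LE le_rfl) le_rfl
  have rp : ((p : ℕ) : IsLocalRing.ResidueField O) = 0 := by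
    have := key (p : O) (by simpa using hpv)
    simpa using this
  have r4 : (4 : IsLocalRing.ResidueField O) ≠ 0 := by
    have := key' (4 : O) (by rw [c4]; exact h4u)
    simpa [map_ofNat] using this
  have rβ : r B₂ + 12 * r E ≠ 0 := by
    have := key' (B₂ + 12 * E) (by simpa [B₂, E, c12] using hβ')
    simpa [map_ofNat] using this
  have rκ : r B₄ + r B₂ * r E + 6 * r E ^ 2 = 0 := by
    have := key (B₄ + B₂ * E + 6 * E ^ 2) (by
      have h5 : ((B₄ + B₂ * E + 6 * E ^ 2 : O) : K)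
          = 2 * ((W.b₄ + W.b₂ * e + 6 * e ^ 2) / 2) := by
        simp only [B₂, B₄, E]
        push_cast
        rw [c6]
        field_simp
      rw [h5]
      exact (two.mul_GT hκ').mono (by norm_num))
    simpa [map_ofNat] using this
  have re : 4 * r E ^ 3 + r B₂ * r E ^ 2 + 2 * r B₄ * r E + r B₆ = 0 := by
    have h5 : (4 * E ^ 3 + B₂ * E ^ 2 + 2 * B₄ * E + B₆ : O) = 0 := by
      apply Subtype.ext
      simpa [B₂, B₄, B₆, E, c2, c4] using he
    have := congrArg r h5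
    simpa [map_ofNat] using this
  have r8 : 4 * r B₈ = r B₂ * r B₆ - r B₄ ^ 2 := by
    have h5 : (4 * B₈ : O) = B₂ * B₆ - B₄ ^ 2 := by
      apply Subtype.ext
      simpa [B₂, B₄, B₆, B₈, c4] using W.b_relation
    have := congrArg r h5
    simpa [map_ofNat] using this
  have e2 : r B₂ + 12 * r E - 12 * r E = r B₂ := by ring
  have e4 : 6 * r E ^ 2 - (r B₂ + 12 * r E) * r E = r B₄ := by linear_combination -rκ
  have e6 : (r B₂ + 12 * r E) * r E ^ 2 - 4 * r E ^ 3 = r B₆ := by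
    linear_combination -re + 2 * r E * rκ
  have e8 : 3 * r E ^ 4 - (r B₂ + 12 * r E) * r E ^ 3 = r B₈ := by
    apply mul_left_cancel₀ r4
    rw [r8, ← e6, ← e4]
    ring
  have hcoe : ∀ Z : O, (((pq B₂ B₄ B₆ B₈ Z p).2 : O) : K) = (pq W.b₂ W.b₄ W.b₆ W.b₈ (Z : K) p).2 :=
    fun Z => map_pq_snd B₂ B₄ B₆ B₈ Z O.subtype p
  constructor
  · have hD : dupD (r B₂) (r B₄) (r B₆) (r E) 1 = 0 := by
      simp only [dupD]
      linear_combination re
    have hN : dupN (r B₄) (r B₆) (r B₈) (r E) 1 = 0 := by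
      simp only [dupN]
      rw [← e8, ← e6, ← e4]
      ring
    have h0 := pq_node_zero (r B₂) (r B₄) (r B₆) (r B₈) (r E) hD hN p hp.two_le
    have h1 : r (pq B₂ B₄ B₆ B₈ E p).2 = 0 := by
      rw [map_pq_snd, h0]
    have h3 := (Nodal.residue_eq_zero_iff _).mp h1
    rwa [hcoe E] at h3
  · intro X hX
    have hXi : v.GE X 0 := by
      have : X = (X - e) + e := by ring
      rw [this]; exact (hX.GE le_rfl).add hei
    let XX : O := ⟨X, hXi⟩
    have rx : r XX ≠ r E := by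
      have := key' (XX - E) (by simpa [XX, E] using hX)
      rw [map_sub] at this
      exact sub_ne_zero.mp this
    have main := pq_nodal_ne_zero hp rp rβ rx
    rw [e2, e4, e6, e8, ← map_pq_snd] at main
    have h3 : ¬ v.GT (((pq B₂ B₄ B₆ B₈ XX p).2 : O) : K) 0 :=
      fun h => main ((Nodal.residue_eq_zero_iff _).mpr h)
    have h4 : v.GE (((pq B₂ B₄ B₆ B₈ XX p).2 : O) : K) 0 := (pq B₂ B₄ B₆ B₈ XX p).2.2
    rw [hcoe XX] at h3 h4
    rcases RVal.GE_or_LE (v := v) (pq W.b₂ W.b₄ W.b₆ W.b₈ X p).2 0 with h | h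
    · exact absurd h h3
    · exact ⟨h.1, le_antisymm h.2 (h4.le_w h.1)⟩

theorem exists_not_InE1 [IsAlgClosed K] (W : WeierstrassCurve.Affine K) (e : K) (h2 : (2 : K) ≠ 0)
    (he : 4 * e ^ 3 + W.b₂ * e ^ 2 + 2 * W.b₄ * e + W.b₆ = 0) (v : RVal K)
    {b : ℕ} (hp : (2 * b + 1).Prime) (hpK : (2 * (b : K) + 1) ≠ 0)
    (hpv : v.GT ((2 * b + 1 : ℕ) : K) 0) (hΔ : W.Δ ≠ 0)
    (hb₂ : v.GE W.b₂ 0) (hb₄ : v.GE W.b₄ 0) (hei : v.GE e 0)
    (hβ : v.EQ (kummerOf W e h2 he).β 0) (hκ : v.GT (kummerOf W e h2 he).κ 0) :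
    ∃ g : W.Point, (2 * b + 1) • g = 0 ∧ ¬ InE1 (kummerOf W e h2 he) v g := by
  by_contra hcon
  push Not at hcon
  have hn : ((2 * b + 1 : ℕ) : K) ≠ 0 := by push_cast; exact hpK
  have hcard := Fermat.Agent.S41.Eis.card_torsionBy W hΔ (n := 2 * b + 1) ⟨b, rfl⟩ hn
  obtain ⟨-, hprod⟩ := half_eq_prod' W hpK hcard
  have hroot : ∀ ξ ∈ (half W b).roots.toFinset, e - ξ ≠ 0 ∧ v.w (e - ξ) < 0 := by
    intro ξ hξ
    have h1 : (half W b).eval ξ = 0 := by
      have := Multiset.mem_toFinset.1 hξ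
      exact (Polynomial.mem_roots'.1 this).2
    obtain ⟨y, hy⟩ := exists_nonsingular W hΔ ξ
    have h3 := hcon (WeierstrassCurve.Affine.Point.some ξ y hy)
      ((odd_nsmul_eq_zero_iff W hy b).mpr h1) (ξ - e) rfl
    have e1 : e - ξ = -(ξ - e) := by ring
    rw [e1, RVal.w_neg]
    exact ⟨neg_ne_zero.2 h3.1, h3.2⟩
  have hcmp : ∀ s : Finset K, (∀ ξ ∈ s, e - ξ ≠ 0 ∧ v.w (e - ξ) < 0) →
      (∏ ξ ∈ s, (e - ξ) ≠ 0 ∧ ∏ ξ ∈ s, (e + 1 - ξ) ≠ 0 ∧
        v.w (∏ ξ ∈ s, (e - ξ)) = v.w (∏ ξ ∈ s, (e + 1 - ξ))) := by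
    intro s
    induction s using Finset.induction_on with
    | empty => intro _; simp
    | insert a s ha ih =>
      intro h
      obtain ⟨i1, i2, i3⟩ := ih fun ξ hξ => h ξ (Finset.mem_insert_of_mem hξ)
      obtain ⟨a1, a2⟩ := h a (Finset.mem_insert_self a s)
      have a3 : v.EQ (e + 1 - a) (v.w (e - a)) := by
        have : e + 1 - a = (e - a) + 1 := by ring
        rw [this]
        exact (RVal.EQ_self a1).add_GT (RVal.EQ_one.GT a2)
      rw [Finset.prod_insert ha, Finset.prod_insert ha]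
      refine ⟨mul_ne_zero a1 i1, mul_ne_zero a3.1 i2, ?_⟩
      rw [v.map_mul _ _ a1 i1, v.map_mul _ _ a3.1 i2, a3.2, i3]
  obtain ⟨c1, c2, c3⟩ := hcmp _ hroot
  have hev : ∀ X : K, (half W b).eval X =
      -(2 * (b : K) + 1) * ∏ ξ ∈ (half W b).roots.toFinset, (X - ξ) := by
    intro X
    conv_lhs => rw [hprod]
    simp [Polynomial.eval_prod]
  have hlead : -(2 * (b : K) + 1) ≠ 0 := neg_ne_zero.2 hpK
  have hw : v.w ((half W b).eval e) = v.w ((half W b).eval (e + 1)) := by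
    rw [hev, hev, v.map_mul _ _ hlead c1, v.map_mul _ _ hlead c2, c3]
  have hne1 : (half W b).eval e ≠ 0 := by rw [hev]; exact mul_ne_zero hlead c1
  have hne2 : (half W b).eval (e + 1) ≠ 0 := by rw [hev]; exact mul_ne_zero hlead c2
  obtain ⟨d1, d2⟩ := den_val W e h2 he v hp (by omega) hpv hb₂ hb₄ hei hβ hκ
  have d3 := d2 (e + 1) (by rw [add_sub_cancel_left]; exact RVal.EQ_one)
  rw [← eval_den, den_odd, Polynomial.eval_pow] at d1 d3
  have f1 := d1.lt_w (pow_ne_zero 2 hne1)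
  have f2 := d3.2
  rw [RVal.w_pow hne1] at f1
  rw [RVal.w_pow hne2] at f2
  rw [hw] at f1
  linarith

end Fermat.Agent.S44.E
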