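import Fermat.Agent.S13.Local
import Fermat.Agent.S44.E.Filt

/-!
# S44 / E / Pair : an inertia element moving `E[p]` moves an abscissa by little   [key S44/E-PAIR = (E4), (E5)]

Abstract setting (`KummerData`, `SlopeData`, `Inert` of S05 / S13), multiplicative reduction
(`β` a unit, `w κ = h > 0`), `p = 2 b + 1` odd.

* `pair_delta` : `g₁, g₂` near the node at the same distance `r`, `ξ (g₁ + g₂)` integral, `Y = ξ (g₁ - g₂)` not integral:
  `(X + Y) δ² = (x₁ + x₂)(2 x₁ x₂ + 2 κ) + β x₁ x₂` has valuation `2 r`, `w (X + Y) = w Y`, so `2 w δ = 2 r - w Y`.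
* `exists_moved` : if `τ` moves some `p`-torsion point then it moves one outside `E₁`, `g` say (the complement of a proper subgroup
  generates); `r = w ξ(g) > 0` (no unit torsion), `T' = τ g - g ∈ E₁ ∖ 0`, `τ g + g = 2 g + T' ∉ E₁`, `σ x ≠ x`;
  `pair_delta` and the budget `b (- w ξ(T')) ≤ w p`.
-/

set_option autoImplicit false

namespace Fermat.Agent.S44.E

open Fermat.Agent.S05 Fermat.Agent.S13

variable {K : Type*} [Field K] {G : Type*} [AddCommGroup G]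
variable {D : KummerData K G} {v : RVal K}

theorem pair_delta {h r : ℝ} (hβ : v.EQ D.β 0) (hκ : v.EQ D.κ h) (hr : 0 < r) (hrh : r < h)
    {g₁ g₂ : G} {x₁ x₂ X Y : K} (hx₁ : D.ξ g₁ = some x₁) (hx₂ : D.ξ g₂ = some x₂)
    (h₁ : v.EQ x₁ r) (h₂ : v.EQ x₂ r) (hne : x₁ ≠ x₂)
    (hX : D.ξ (g₁ + g₂) = some X) (hXi : v.GE X 0) (hY : D.ξ (g₁ - g₂) = some Y)
    (hY0 : Y ≠ 0) (hYneg : v.w Y < 0) : 2 * v.w (x₁ - x₂) = 2 * r - v.w Y := by
  obtain ⟨X', Y', hX', hY', -, hsum⟩ := D.addsub g₁ g₂ x₁ x₂ hx₁ hx₂ hne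
  obtain rfl : X' = X := by rw [hX] at hX'; exact (Option.some.inj hX').symm
  obtain rfl : Y' = Y := by rw [hY] at hY'; exact (Option.some.inj hY').symm
  have hδ0 : x₁ - x₂ ≠ 0 := sub_ne_zero.mpr hne
  have hS : v.EQ (X' + Y') (v.w Y') := by
    rw [add_comm]
    exact (RVal.EQ_self hY0).add_GT (hXi.GT hYneg)
  have hR : v.EQ ((x₁ + x₂) * (2 * x₁ * x₂ + 2 * D.κ) + D.β * x₁ * x₂) (2 * r) := by
    have a1 : v.EQ (D.β * x₁ * x₂) (2 * r) := ((hβ.mul h₁).mul h₂).of_eq (by ring)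
    have a2 : v.GE (x₁ + x₂) r := (h₁.GE le_rfl).add (h₂.GE le_rfl)
    have a3 : v.GT (2 * x₁ * x₂) r :=
      ((((RVal.GE_ofNat 2).mul (h₁.GE le_rfl)).mul (h₂.GE le_rfl))).GT (by linarith)
    have a4 : v.GT (2 * D.κ) r := ((RVal.GE_ofNat 2).mul (hκ.GE le_rfl)).GT (by linarith)
    have a5 : v.GT ((x₁ + x₂) * (2 * x₁ * x₂ + 2 * D.κ)) (2 * r) :=
      (a2.mul_GT (a3.add a4)).mono (by linarith)
    rw [add_comm]
    exact a1.add_GT a5
  have hL : v.EQ ((X' + Y') * (x₁ - x₂) ^ 2) (v.w Y' + 2 * v.w (x₁ - x₂)) :=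
    hS.mul (RVal.EQ_self hδ0).sq
  rw [hsum] at hL
  have := hL.2.symm.trans hR.2
  linarith

/-- `g = ((p+1)/2) • (2 g)` -/
lemma eq_nsmul_two_nsmul {b : ℕ} {g : G} (hg : (2 * b + 1) • g = 0) : g = (b + 1) • (g + g) := by
  have : (b + 1) • (g + g) = (2 * b + 1) • g + g := by
    rw [← two_nsmul, ← mul_smul, add_smul (2 * b) 1 g, one_smul, add_assoc, ← two_nsmul,
      ← add_smul]
    congr 1
    ring
  rw [this, hg, zero_add]

theorem exists_moved {S : SlopeData D} {σ : K →+* K} {τ : G →+ G} (I : Inert D S v σ τ)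
    {h : ℝ} (hh : 0 < h) (hα₁ : v.GE S.α₁ 0) (hα₂ : v.GE S.α₂ 0) (hβ : v.EQ D.β 0)
    (hκ : v.EQ D.κ h) {b : ℕ}
    (hM3 : ∀ g x, D.ξ g = some x → v.EQ x 0 → (2 * b + 1) • g ≠ 0)
    (hnot : ∃ g : G, (2 * b + 1) • g = 0 ∧ ¬ InE1 D v g)
    {wp : ℝ}
    (hbud : ∀ T x, (2 * b + 1) • T = 0 → D.ξ T = some x → x ≠ 0 → v.w x < 0 →
      (b : ℝ) * (- v.w x) ≤ wp)
    {g₀ : G} (hg₀ : (2 * b + 1) • g₀ = 0) (hτ : τ g₀ ≠ g₀) :
    ∃ (g : G) (x : K) (j : ℤ), (2 * b + 1) • g = 0 ∧ D.ξ g = some x ∧ x ≠ 0 ∧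
      ((2 * b + 1 : ℕ) : ℝ) * v.w x = 2 * h * j ∧ σ x - x ≠ 0 ∧
      2 * (b : ℝ) * v.w (σ x - x) ≤ 2 * (b : ℝ) * v.w x + wp := by
  have hβ' := hβ.GE le_rfl
  have hκ' : v.GE D.κ 0 := hκ.GE hh.le
  have hodd : Odd (2 * b + 1) := ⟨b, rfl⟩
  -- a moved point outside `E₁`
  obtain ⟨g, hg, hgE, hτg⟩ : ∃ g : G, (2 * b + 1) • g = 0 ∧ ¬ InE1 D v g ∧ τ g ≠ g := by
    by_cases h0 : InE1 D v g₀
    · obtain ⟨g₁, hg₁, hg₁E⟩ := hnot
      by_cases h1 : τ g₁ = g₁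
      · refine ⟨g₀ + g₁, by rw [smul_add, hg₀, hg₁, add_zero], ?_, ?_⟩
        · intro h2
          apply hg₁E
          have := h2.sub hβ' hκ' h0
          rwa [add_sub_cancel_left] at this
        · rw [map_add, h1]
          intro h2
          exact hτ (add_right_cancel h2)
      · exact ⟨g₁, hg₁, hg₁E, h1⟩
    · exact ⟨g₀, hg₀, h0, hτ⟩
  -- its abscissa
  obtain ⟨x, hx, hxpos⟩ : ∃ x, D.ξ g = some x ∧ v.GT x 0 := by
    rcases hx : D.ξ g with _ | x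
    · exfalso
      apply hgE
      rw [(D.ξ_eq_none g).mp hx]
      exact InE1.zero
    · refine ⟨x, rfl, ?_⟩
      rcases RVal.GE_or_LE (v := v) x 0 with h1 | h1
      · exact h1
      · exfalso
        rcases lt_or_eq_of_le h1.2 with h2 | h2
        · exact hgE (inE1_of_lt hx h1.1 h2)
        · exact hM3 g x hx ⟨h1.1, h2⟩ hg
  obtain ⟨hx0, hxh, j, hj⟩ := val_of_torsion' D hh hβ hκ hx hxpos hodd hg
  have hr : 0 < v.w x := hxpos.lt_w hx0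
  have ex : v.EQ x (v.w x) := RVal.EQ_self hx0
  -- `T' = τ g - g`
  have hT1 : InE1 D v (τ g - g) := sub_mem_E1_of_mult I hh hα₁ hα₂ hβ hκ hodd hM3 hg
  have hτgp : (2 * b + 1) • τ g = 0 := by rw [← map_nsmul, hg, map_zero]
  have hTp : (2 * b + 1) • (τ g - g) = 0 := by rw [smul_sub, hτgp, hg, sub_zero]
  have hT0 : τ g - g ≠ 0 := sub_ne_zero.mpr hτg
  obtain ⟨Y, hY⟩ : ∃ Y, D.ξ (τ g - g) = some Y := by
    rcases hY : D.ξ (τ g - g) with _ | Y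
    · exact absurd ((D.ξ_eq_none _).mp hY) hT0
    · exact ⟨Y, rfl⟩
  obtain ⟨hY0, hYneg⟩ := hT1 Y hY
  -- `2 g ∉ E₁`
  have h2g : ¬ InE1 D v (g + g) := by
    intro h1
    apply hgE
    rw [eq_nsmul_two_nsmul hg]
    exact h1.nsmul hβ' hκ' _
  -- `τ g + g ∉ E₁`
  have hsumE : ¬ InE1 D v (τ g + g) := by
    intro h1
    apply h2g
    have := h1.sub hβ' hκ' hT1
    have e1 : τ g + g - (τ g - g) = g + g := by abel
    rwa [e1] at this
  obtain ⟨X, hX, hXi⟩ : ∃ X, D.ξ (τ g + g) = some X ∧ v.GE X 0 := by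
    rcases hX : D.ξ (τ g + g) with _ | X
    · exfalso
      apply hsumE
      rw [(D.ξ_eq_none _).mp hX]
      exact InE1.zero
    · refine ⟨X, rfl, ?_⟩
      rcases RVal.GE_or_LE (v := v) X 0 with h1 | h1
      · exact h1.GE le_rfl
      · rcases lt_or_eq_of_le h1.2 with h2 | h2
        · exact absurd (inE1_of_lt hX h1.1 h2) hsumE
        · exact Or.inr h2.ge
  -- `σ x ≠ x`
  have hne : σ x ≠ x := by
    intro h1
    have h3 : D.ξ (τ g) = D.ξ g := by rw [I.ξ_some hx, hx, h1]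
    rcases D.eq_or_eq_neg _ _ h3 with h4 | h4
    · exact hτg h4
    · apply h2g
      have : τ g - g = -(g + g) := by rw [h4]; abel
      rw [this] at hT1
      have := hT1.neg
      rwa [neg_neg] at this
  have hδ := pair_delta hβ hκ hr hxh (I.ξ_some hx) hx (I.EQ_σ ex) ex hne hX hXi hY hY0 hYneg
  have hb := hbud _ Y hTp hY hY0 hYneg
  refine ⟨g, x, j, hg, hx, hx0, hj, sub_ne_zero.mpr hne, ?_⟩
  have e1 : 2 * (b : ℝ) * v.w (σ x - x) = (b : ℝ) * (2 * v.w (σ x - x)) := by ring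
  rw [e1, hδ]
  linarith

end Fermat.Agent.S44.E
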