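import Fermat.Agent.S13.Main
import Fermat.Agent.S44.Ram
import Fermat.Agent.S44.E.Bud
import Fermat.Agent.S44.E.Pair
import Fermat.Agent.S44.E.Node0

/-!
# S44 / E / Main : the Frey curve is "peu ramifiée" at `p`   [key S44/E-MAIN]

`frey_not_TR` : if `K0(ζ_p, E[p]) = K0(ζ_p, c0)` with `c0 ^ p ∈ K0(ζ_p)` (`K0` = the fixed field of the inertia group `I` at `p`;
everything is expressed with the subgroup `I_ζ = {σ ∈ I, σ ζ = ζ}`) then `w c0` is the valuation of an element of `K0(ζ_p)`.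

Proof: otherwise some `τ ∈ I_ζ` moves `c0`, hence moves `E[p]`; `frey_exists_alpha` produces an integral `α ∈ ℚ(E[p])` with
`w (τ α - α) ≤ w p / (p - 1)`; this contradicts `ram_inertia`.
-/

set_option autoImplicit false

namespace Fermat.Agent.S44.E

open Fermat.Agent.S05 Fermat.Agent.S13 Fermat.Agent.DivPoly
open WeierstrassCurve WeierstrassCurve.Affine WeierstrassCurve.Affine.Point

local notation "Qb" => AlgebraicClosure ℚ

variable (P : FreyPackage)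

theorem alpha_aux {A : ValuationSubring Qb} (hA : A.LiesOverPrime P.p) {v : RVal Qb}
    (hv : ∀ x : Qb, x ≠ 0 → (0 ≤ v.w x ↔ x ∈ A)) {e : Qb}
    (he : 4 * e ^ 3 + (P.freyCurve⁄Qb).b₂ * e ^ 2 + 2 * (P.freyCurve⁄Qb).b₄ * e +
      (P.freyCurve⁄Qb).b₆ = 0)
    (hfe : ∀ σ : Qb ≃ₐ[ℚ] Qb, σ e = e) (hei : v.GE e 0) {c : ℤ} (hc0 : c ≠ 0)
    (hpc : (P.p : ℤ) ∣ c)
    (hβ : v.EQ (kummerOf (P.freyCurve⁄Qb) e two_ne he).β 0)
    (hκ : v.EQ (kummerOf (P.freyCurve⁄Qb) e two_ne he).κ (P.p * v.w (c : Qb)))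
    (hα₂ : v.GE (slopeOf (P.freyCurve⁄Qb) e two_ne he).α₂ 0)
    {τ : Qb ≃ₐ[ℚ] Qb} (hτ : τ ∈ A.inertiaSubgroupIn ℚ) {g₀ : (P.freyCurve⁄Qb).Point}
    (hg₀ : P.p • g₀ = 0) (hτg : τ • g₀ ≠ g₀) :
    ∃ α : Qb, v.GE α 0 ∧
      (∀ σ : Qb ≃ₐ[ℚ] Qb, (∀ g : (P.freyCurve⁄Qb).Point, P.p • g = 0 → σ • g = g) → σ α = α) ∧
      τ α - α ≠ 0 ∧ v.w (τ α - α) ≤ v.w (P.p : Qb) / ((P.p : ℝ) - 1) := by
  classical
  have hq := P.pp
  obtain ⟨b, hb⟩ := P.hp_odd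
  have hb1 : 1 ≤ b := by have := P.hp5; omega
  have hpK : ((P.p : ℕ) : Qb) ≠ 0 := by exact_mod_cast P.hp0
  have hpK' : (2 * (b : Qb) + 1) ≠ 0 := by
    have := hpK
    rw [hb] at this
    push_cast at this
    exact this
  have hpv : v.GT ((P.p : ℕ) : Qb) 0 := Or.inr (w_prime_pos hq hA hv)
  have hcne : (c : Qb) ≠ 0 := by exact_mod_cast hc0
  have hcpos : 0 < v.w (c : Qb) := rval_int_pos hq hA hv hc0 hpc
  have hh : 0 < (P.p : ℝ) * v.w (c : Qb) := by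
    have : (0 : ℝ) < P.p := by exact_mod_cast P.hppos
    positivity
  have hb₂ : v.GE (P.freyCurve⁄Qb).b₂ 0 := by
    rw [frey_b₂]
    exact ((RVal.GE_intCast P.b).pow P.p |>.mono (by simp)).sub
      ((RVal.GE_intCast P.a).pow P.p |>.mono (by simp))
  have hb₄ : v.GE (P.freyCurve⁄Qb).b₄ 0 := by
    have : (P.freyCurve⁄Qb).b₄ = 2 * (D0 P).κ := by
      rw [D0_κ, frey_b₄]; push_cast; rw [mul_pow]; ring
    rw [this, D0_κ_int]
    exact (RVal.GE_intCast _).two_mul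
  have hα₁ : v.GE (slopeOf (P.freyCurve⁄Qb) e two_ne he).α₁ 0 := by
    have : (slopeOf (P.freyCurve⁄Qb) e two_ne he).α₁ = 1 := frey_a₁ P
    rw [this]; exact RVal.EQ_one.GE le_rfl
  have hcard := Fermat.Agent.S41.Eis.card_torsionBy (P.freyCurve⁄Qb) (frey_Δ_ne_zero P) P.hp_odd hpK
  set D := kummerOf (P.freyCurve⁄Qb) e two_ne he with hD
  have hM3 : ∀ g x, D.ξ g = some x → v.EQ x 0 → (2 * b + 1) • g ≠ 0 := by
    intro g x hx hx0
    rw [← hb]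
    exact no_unit_torsion (P.freyCurve⁄Qb) _ two_ne he v hq (by have := P.hp5; omega) hpv
      hb₂ hb₄ hei hβ (hκ.GT hh) hx hx0
  have hnot : ∃ g : (P.freyCurve⁄Qb).Point, (2 * b + 1) • g = 0 ∧ ¬ InE1 D v g :=
    exists_not_InE1 (P.freyCurve⁄Qb) e two_ne he v (hb ▸ hq) hpK' (hb ▸ hpv) (frey_Δ_ne_zero P)
      hb₂ hb₄ hei hβ (hκ.GT hh)
  have hβ0 : v.GE (kummerOf (P.freyCurve⁄Qb) 0 two_ne (he0 P)).β 0 := by
    have : (kummerOf (P.freyCurve⁄Qb) 0 two_ne (he0 P)).β = (D0 P).β := rfl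
    rw [this, D0_β]; exact RVal.GE_intCast _
  have hκ0 : v.GE (kummerOf (P.freyCurve⁄Qb) 0 two_ne (he0 P)).κ 0 := by
    have : (kummerOf (P.freyCurve⁄Qb) 0 two_ne (he0 P)).κ = (D0 P).κ := rfl
    rw [this, D0_κ_int]; exact RVal.GE_intCast _
  have hbud : ∀ T x, (2 * b + 1) • T = 0 → D.ξ T = some x → x ≠ 0 → v.w x < 0 →
      (b : ℝ) * (- v.w x) ≤ v.w ((P.p : ℕ) : Qb) := by
    intro T x hT hx hx0 hneg
    rcases T with _ | ⟨X, Y, hXY⟩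
    · cases hx
    have hxX : X - e = x := Option.some.inj hx
    have h3 := (RVal.EQ_self (v := v) hx0).add_GT (hei.GT hneg)
    have hX : x + e = X := by rw [← hxX]; ring
    rw [hX] at h3
    have := bud (P.freyCurve⁄Qb) two_ne (he0 P) v (hb ▸ hq) hpK' (hb ▸ hcard)
      (half_integral P v b) hβ0 hκ0 hT (x := X) (by
        show Option.some (X - 0) = Option.some X
        rw [sub_zero]) h3.1 (by rw [h3.2]; exact hneg)
    rw [h3.2] at this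
    rw [hb]
    exact this
  have hI : Inert D (slopeOf (P.freyCurve⁄Qb) e two_ne he) v (τ : Qb →+* Qb)
      (Point.map τ.toAlgHom) := inert_of hv hτ he (hfe τ)
  have hτg' : Point.map τ.toAlgHom g₀ ≠ g₀ := by
    rw [← algEquiv_smul_def]; exact hτg
  obtain ⟨g, x, j, hg, hx, hx0, hj, hne, hle⟩ :=
    exists_moved hI hh hα₁ hα₂ hβ hκ hM3 hnot hbud (hb ▸ hg₀) hτg'
  -- the valuation of `x`
  have hp0 : (0 : ℝ) < P.p := by exact_mod_cast P.hppos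
  have hwx : v.w x = 2 * j * v.w (c : Qb) := by
    rw [← hb] at hj
    have : (P.p : ℝ) * (v.w x - 2 * j * v.w (c : Qb)) = 0 := by linarith
    rcases mul_eq_zero.mp this with h1 | h1
    · exact absurd h1 hp0.ne'
    · linarith
  have hd0 : (c : Qb) ^ (2 * j) ≠ 0 := zpow_ne_zero _ hcne
  have hwd : v.w ((c : Qb) ^ (2 * j)) = v.w x := by
    rw [RVal.w_zpow hcne, hwx]; push_cast; ring
  have hfd : ∀ σ : Qb ≃ₐ[ℚ] Qb, σ ((c : Qb) ^ (2 * j)) = (c : Qb) ^ (2 * j) := by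
    intro σ
    rw [map_zpow₀, map_intCast]
  refine ⟨x / (c : Qb) ^ (2 * j), ?_, ?_, ?_, ?_⟩
  · exact Or.inr (by rw [RVal.w_div hx0 hd0, hwd]; linarith)
  · intro σ hσ
    have h1 := hσ g (hb ▸ hg)
    rw [algEquiv_smul_def] at h1
    have h2 := kummer_ξ_map σ two_ne he (hfe σ) g
    rw [h1] at h2
    rw [← hD, hx] at h2
    have h3 : x = σ x := Option.some.inj h2
    rw [map_div₀, hfd, ← h3]
  · rw [map_div₀, hfd, ← sub_div]
    exact div_ne_zero hne hd0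
  · rw [map_div₀, hfd, ← sub_div]
    have hne' : τ x - x ≠ 0 := hne
    rw [RVal.w_div hne' hd0, hwd]
    have hbpos : (0 : ℝ) < b := by exact_mod_cast hb1
    have hp1 : (P.p : ℝ) - 1 = 2 * b := by rw [hb]; push_cast; ring
    rw [hp1, le_div_iff₀ (by positivity)]
    have hle' : 2 * (b : ℝ) * v.w (τ x - x) ≤ 2 * (b : ℝ) * v.w x + v.w ((P.p : ℕ) : Qb) := hle
    nlinarith

/-- an inertia element at `p` acting non trivially on `E[p]` moves an integral element of `ℚ(E[p])` by little -/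
theorem frey_exists_alpha (hpabc : (P.p : ℤ) ∣ P.a * P.b * P.c) {A : ValuationSubring Qb}
    (hA : A.LiesOverPrime P.p) {v : RVal Qb} (hv : ∀ x : Qb, x ≠ 0 → (0 ≤ v.w x ↔ x ∈ A))
    {τ : Qb ≃ₐ[ℚ] Qb} (hτ : τ ∈ A.inertiaSubgroupIn ℚ) {g₀ : (P.freyCurve⁄Qb).Point}
    (hg₀ : P.p • g₀ = 0) (hτg : τ • g₀ ≠ g₀) :
    ∃ α : Qb, v.GE α 0 ∧
      (∀ σ : Qb ≃ₐ[ℚ] Qb, (∀ g : (P.freyCurve⁄Qb).Point, P.p • g = 0 → σ • g = g) → σ α = α) ∧
      τ α - α ≠ 0 ∧ v.w (τ α - α) ≤ v.w (P.p : Qb) / ((P.p : ℝ) - 1) := by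
  have hq := P.pp
  have hqZ : Prime (P.p : ℤ) := Nat.prime_iff_prime_int.mp hq
  have unit : ∀ n : ℤ, ¬ (P.p : ℤ) ∣ n → v.EQ (n : Qb) 0 := fun n hn => rval_int_unit hq hA hv hn
  have hq2' : ¬ (P.p : ℤ) ∣ 2 := by
    intro h
    have h' : P.p ∣ 2 := by exact_mod_cast h
    have := (Nat.prime_dvd_prime_iff_eq hq Nat.prime_two).mp h'
    have := P.hp5
    omega
  have h2 : v.EQ (2 : Qb) 0 := by
    have := unit 2 hq2'
    simpa using this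
  have h4 : v.EQ (4 : Qb) 0 := by
    have := (h2.pow 2).of_eq (b := 0) (by ring)
    norm_num at this
    exact this
  have h16 : v.EQ (16 : Qb) 0 := by
    have := (h2.pow 4).of_eq (b := 0) (by ring)
    norm_num at this
    exact this
  have hab := isCoprime_of_gcd P.hgcdab
  have hac := isCoprime_of_gcd P.hgcdac
  have hp0 := P.hp0
  by_cases hc : (P.p : ℤ) ∣ P.c
  · have hei : v.GE ((P.a : Qb) ^ P.p / 4) 0 :=
      ((((RVal.GE_intCast P.a).pow P.p).mul (h4.inv.GE le_rfl)).mono (by simp))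
    have hβ : v.EQ (Dc P).β 0 := by
      rw [Dc_β]; exact unit _ (not_dvd_pow_add hqZ hac hc hp0)
    have hne : ((P.a * P.c : ℤ) : Qb) ≠ 0 := by exact_mod_cast mul_ne_zero P.ha0 P.hc0
    have hκ : v.EQ (Dc P).κ (P.p * v.w ((P.a * P.c : ℤ) : Qb)) := by
      rw [Dc_κ]
      exact (((RVal.EQ_self hne).pow P.p).div h16).of_eq (by ring)
    have hα₂ : v.GE (Sc P).α₂ 0 := by
      rw [Sc_α₂]
      exact ((RVal.GE_intCast _).mul (h4.inv.GE le_rfl)).mono (by simp)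
    exact alpha_aux P hA hv (hec P)
      (fun σ => by rw [map_div₀, map_pow, map_intCast, map_ofNat]) hei
      (mul_ne_zero P.ha0 P.hc0) (Dvd.dvd.mul_left hc _) hβ hκ hα₂ hτ hg₀ hτg
  · have hdvd : (P.p : ℤ) ∣ P.a * P.b := (hqZ.dvd_or_dvd hpabc).resolve_right hc
    have hα₂ : v.GE (S0 P).α₂ 0 := by rw [S0_α₂]; exact RVal.GE_intCast _
    have hne : ((P.a * P.b : ℤ) : Qb) ≠ 0 := by exact_mod_cast mul_ne_zero P.ha0 P.hb0
    have hβ : v.EQ (D0 P).β 0 := by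
      rw [D0_β]
      rcases hqZ.dvd_or_dvd hdvd with h | h
      · exact unit _ (not_dvd_pow_sub hqZ hab h hp0)
      · exact unit _ (not_dvd_pow_sub' hqZ hab h hp0)
    have hκ : v.EQ (D0 P).κ (P.p * v.w ((P.a * P.b : ℤ) : Qb)) := by
      rw [D0_κ]
      exact (((RVal.EQ_self hne).pow P.p).div h16).neg.of_eq (by ring)
    exact alpha_aux P hA hv (he0 P) (fun σ => _root_.map_zero σ) (RVal.GE_zero 0)
      (mul_ne_zero P.ha0 P.hb0) hdvd hβ hκ hα₂ hτ hg₀ hτg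

/-- **E-side export**: the Frey curve is not "très ramifiée" at `p`. -/
theorem frey_not_TR (hpabc : (P.p : ℤ) ∣ P.a * P.b * P.c) {A : ValuationSubring Qb}
    (hA : A.LiesOverPrime P.p) {v : RVal Qb} (hv : ∀ x : Qb, x ≠ 0 → (0 ≤ v.w x ↔ x ∈ A))
    {ζ c0 : Qb} (hζ : IsPrimitiveRoot ζ P.p) (hc0 : c0 ≠ 0)
    (hpow : ∀ σ ∈ A.inertiaSubgroupIn ℚ, σ ζ = ζ → σ (c0 ^ P.p) = c0 ^ P.p)
    (hL : ∀ σ ∈ A.inertiaSubgroupIn ℚ, σ ζ = ζ →
      (σ c0 = c0 ↔ ∀ g : (P.freyCurve⁄Qb).Point, P.p • g = 0 → σ • g = g)) :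
    ∃ y : Qb, y ≠ 0 ∧ (∀ σ ∈ A.inertiaSubgroupIn ℚ, σ ζ = ζ → σ y = y) ∧ v.w y = v.w c0 := by
  by_contra hTR
  have hpK : ((P.p : ℕ) : Qb) ≠ 0 := by exact_mod_cast P.hp0
  -- some `τ` moves `c0`
  obtain ⟨τ, hτ, hτζ, hτc⟩ : ∃ τ ∈ A.inertiaSubgroupIn ℚ, τ ζ = ζ ∧ τ c0 ≠ c0 := by
    by_contra hcon
    push Not at hcon
    exact hTR ⟨c0, hc0, hcon, rfl⟩
  obtain ⟨g₀, hg₀, hτg⟩ : ∃ g₀ : (P.freyCurve⁄Qb).Point, P.p • g₀ = 0 ∧ τ • g₀ ≠ g₀ := by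
    by_contra hcon
    push Not at hcon
    exact hτc ((hL τ hτ hτζ).mpr hcon)
  obtain ⟨α, hα, hfix, hne, hle⟩ := frey_exists_alpha P hpabc hA hv hτ hg₀ hτg
  have := ram_inertia (w := v) P.pp hpK (A.inertiaSubgroupIn ℚ) hζ hc0 hpow hTR hτ hτζ hα
    (fun σ hσ hσζ hσc => hfix σ ((hL σ hσ hσζ).mp hσc))
  have h1 := this.lt_w hne
  linarith

end Fermat.Agent.S44.E
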